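/-
S18 / wave 4, package C2 (helper57): the dimension bound on the special fibre, pure algebra.

* `Vfin b`, `Vinf k` : the local rings of `k(X)` at `X = b` and at infinity.
* `finrank_le_of_isIntegral` : a finite-dimensional `k`-space of elements of a finite extension
  `E / k(X)` which are integral at every finite point and have poles of order `≤ n` at infinity
  has dimension `≤ (n+1) [E : k(X)]`   (no Riemann-Roch: filtration by the order at infinity,
  each graded piece embeds into `E` linearly independently over `k(X)`; the last step is the norm).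
* `card_le_of_regular` : the same statement in explicit form (no algebra structure over `k(X)`
  needed to state it), as used by the bridge from the abstract `Setup`.
-/
import Mathlib

set_option autoImplicit false

open Polynomial IsDedekindDomain

noncomputable section

namespace Fermat.Agent.S18.H57

open scoped Classical in
/-- the valuation ring of `k(X)` at infinity -/
def Vinf (k : Type*) [Field k] : ValuationSubring (RatFunc k) :=
  (RatFunc.inftyValuation k).valuationSubring

variable {k : Type*} [Field k]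

/-! ### finite points -/

/-- the height-one prime `(X - b)` of `k[X]` -/
def finPrime (b : k) : HeightOneSpectrum k[X] where
  asIdeal := Ideal.span {X - C b}
  isPrime := (Ideal.span_singleton_prime (X_sub_C_ne_zero b)).mpr (prime_X_sub_C b)
  ne_bot := by
    rw [Ne, Ideal.span_singleton_eq_bot]
    exact X_sub_C_ne_zero b

/-- the local ring of `k(X)` at `X = b` -/
def Vfin (b : k) : ValuationSubring (RatFunc k) :=
  ((finPrime b).valuation (RatFunc k)).valuationSubring

theorem mem_Vfin_iff (b : k) (a : RatFunc k) :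
    a ∈ Vfin b ↔ (finPrime b).valuation (RatFunc k) a ≤ 1 :=
  Valuation.mem_valuationSubring_iff _ _

theorem algebraMap_mem_Vfin (b : k) (p : k[X]) : algebraMap k[X] (RatFunc k) p ∈ Vfin b := by
  rw [mem_Vfin_iff, HeightOneSpectrum.valuation_of_algebraMap]
  exact HeightOneSpectrum.intValuation_le_one _ _

theorem div_mem_Vfin (b : k) (p q : k[X]) (hq : q.eval b ≠ 0) :
    algebraMap k[X] (RatFunc k) p / algebraMap k[X] (RatFunc k) q ∈ Vfin b := by
  rw [mem_Vfin_iff, map_div₀, HeightOneSpectrum.valuation_of_algebraMap,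
    HeightOneSpectrum.valuation_of_algebraMap]
  have h1 : (finPrime b).intValuation q = 1 := by
    rw [HeightOneSpectrum.intValuation_eq_one_iff]
    show q ∉ Ideal.span {X - C b}
    rw [Ideal.mem_span_singleton, dvd_iff_isRoot]
    exact hq
  rw [h1, div_one]
  exact HeightOneSpectrum.intValuation_le_one _ _

theorem exists_eq_finPrime [IsAlgClosed k] (v : HeightOneSpectrum k[X]) : ∃ b : k, v = finPrime b := by
  obtain ⟨π, hπ, hπ0⟩ := Submodule.exists_mem_ne_zero_of_ne_bot v.ne_bot
  have hsplit := IsAlgClosed.splits π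
  have hprod := hsplit.eq_prod_roots
  have hmem : C π.leadingCoeff * (π.roots.map fun a => X - C a).prod ∈ v.asIdeal := by
    rw [← hprod]; exact hπ
  have hC : C π.leadingCoeff ∉ v.asIdeal := by
    intro h
    apply v.isPrime.ne_top
    rw [Ideal.eq_top_iff_one]
    have hu : IsUnit (C π.leadingCoeff) := by
      rw [isUnit_C]; exact isUnit_iff_ne_zero.mpr (leadingCoeff_ne_zero.mpr hπ0)
    obtain ⟨u, hu⟩ := hu
    have := v.asIdeal.mul_mem_left (↑u⁻¹ : k[X]) h
    rw [← hu] at this
    simpa using this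
  have h2 := (v.isPrime.mem_or_mem hmem).resolve_left hC
  obtain ⟨t, ht, htv⟩ := (v.isPrime.multiset_prod_mem_iff_exists_mem _).mp h2
  obtain ⟨b, -, rfl⟩ := Multiset.mem_map.mp ht
  refine ⟨b, HeightOneSpectrum.ext ?_⟩
  have hle : (finPrime b).asIdeal ≤ v.asIdeal := by
    show Ideal.span {X - C b} ≤ v.asIdeal
    rw [Ideal.span_le, Set.singleton_subset_iff]
    exact htv
  exact ((finPrime b).isMaximal.eq_of_le v.isPrime.ne_top hle).symm

theorem mem_range_of_forall_mem_Vfin [IsAlgClosed k] (a : RatFunc k) (h : ∀ b : k, a ∈ Vfin b) :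
    ∃ p : k[X], algebraMap k[X] (RatFunc k) p = a := by
  have := HeightOneSpectrum.mem_integers_of_valuation_le_one (R := k[X]) (RatFunc k) a ?_
  · exact this
  · intro v
    obtain ⟨b, rfl⟩ := exists_eq_finPrime v
    exact (mem_Vfin_iff b a).mp (h b)

/-! ### the point at infinity -/

open scoped Classical in
theorem mem_Vinf_iff (a : RatFunc k) : a ∈ Vinf k ↔ RatFunc.inftyValuation k a ≤ 1 :=
  Valuation.mem_valuationSubring_iff _ _

open scoped Classical in
theorem mem_Vinf_iff' (a : RatFunc k) : a ∈ Vinf k ↔ a = 0 ∨ a.intDegree ≤ 0 := by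
  rw [mem_Vinf_iff]
  by_cases ha : a = 0
  · simp [ha]
  · rw [RatFunc.inftyValuation_apply, RatFunc.inftyValuation_of_nonzero k ha]
    simp only [ha, false_or]
    rw [← WithZero.exp_zero, WithZero.exp_le_exp]

theorem C_mem_Vinf (c : k) : RatFunc.C c ∈ Vinf k := by
  rw [mem_Vinf_iff']
  by_cases hc : c = 0
  · left; simp [hc]
  · right; simp [RatFunc.intDegree_C]

theorem X_inv_mem_Vinf : (RatFunc.X : RatFunc k)⁻¹ ∈ Vinf k := by
  rw [mem_Vinf_iff']
  right
  rw [RatFunc.intDegree_inv, RatFunc.intDegree_X]; norm_num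

/-- `X * r ∈ Vinf` when `r` is in the maximal ideal -/
theorem X_mul_mem_Vinf {r : RatFunc k} (hr : r = 0 ∨ r.intDegree < 0) :
    RatFunc.X * r ∈ Vinf k := by
  rw [mem_Vinf_iff']
  rcases hr with rfl | hr
  · left; simp
  · by_cases h0 : r = 0
    · left; simp [h0]
    · right
      rw [RatFunc.intDegree_mul RatFunc.X_ne_zero h0, RatFunc.intDegree_X]
      omega

/-- the residue field at infinity is `k` -/
theorem exists_sub_C {r : RatFunc k} (hr : r ∈ Vinf k) :
    ∃ c : k, (r - RatFunc.C c = 0 ∨ (r - RatFunc.C c).intDegree < 0) := by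
  rw [mem_Vinf_iff'] at hr
  rcases hr with rfl | hr
  · exact ⟨0, by simp⟩
  by_cases h0 : r = 0
  · exact ⟨0, by simp [h0]⟩
  rcases lt_or_eq_of_le hr with hlt | heq
  · exact ⟨0, by right; simpa using hlt⟩
  · -- degree zero
    have hnum : r.num ≠ 0 := RatFunc.num_ne_zero h0
    have hden : r.denom ≠ 0 := RatFunc.denom_ne_zero r
    have hdeg : r.num.natDegree = r.denom.natDegree := by
      have := heq
      rw [RatFunc.intDegree] at this
      omega
    set c := r.num.leadingCoeff / r.denom.leadingCoeff with hc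
    refine ⟨c, ?_⟩
    by_cases hz : r - RatFunc.C c = 0
    · left; exact hz
    right
    have hr_eq : r = algebraMap k[X] (RatFunc k) r.num / algebraMap k[X] (RatFunc k) r.denom :=
      (RatFunc.num_div_denom r).symm
    have hden' : algebraMap k[X] (RatFunc k) r.denom ≠ 0 := by
      simpa using hden
    have hsub : r - RatFunc.C c =
        algebraMap k[X] (RatFunc k) (r.num - C c * r.denom) / algebraMap k[X] (RatFunc k) r.denom := by
      rw [map_sub, map_mul, sub_div, mul_div_cancel_right₀ _ hden', ← hr_eq]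
      rfl
    have hne : r.num - C c * r.denom ≠ 0 := by
      intro h
      apply hz
      rw [hsub, h, map_zero, zero_div]
    have hlt : (r.num - C c * r.denom).natDegree < r.denom.natDegree := by
      have hd0 : r.denom.leadingCoeff ≠ 0 := leadingCoeff_ne_zero.mpr hden
      have hc0 : c ≠ 0 := div_ne_zero (leadingCoeff_ne_zero.mpr hnum) hd0
      have hdeg' : r.num.degree = (C c * r.denom).degree := by
        rw [degree_C_mul hc0, degree_eq_natDegree hnum, degree_eq_natDegree hden, hdeg]
      have hlc : r.num.leadingCoeff = (C c * r.denom).leadingCoeff := by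
        rw [leadingCoeff_mul, leadingCoeff_C, hc, div_mul_cancel₀ _ hd0]
      have := degree_sub_lt_left hdeg' hnum hlc
      rw [degree_eq_natDegree hne, degree_eq_natDegree hnum, hdeg] at this
      exact_mod_cast this
    rw [hsub, div_eq_mul_inv, RatFunc.intDegree_mul
      ((map_ne_zero_iff _ (IsFractionRing.injective k[X] (RatFunc k))).mpr hne) (inv_ne_zero hden'),
      RatFunc.intDegree_inv, RatFunc.intDegree_polynomial, RatFunc.intDegree_polynomial]
    omega

theorem intDegree_X_pow (j : ℕ) : ((RatFunc.X : RatFunc k) ^ j).intDegree = j := by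
  induction j with
  | zero => simp
  | succ m ih =>
    rw [pow_succ, RatFunc.intDegree_mul (pow_ne_zero _ RatFunc.X_ne_zero) RatFunc.X_ne_zero,
      ih, RatFunc.intDegree_X]; push_cast; ring

/-- a polynomial multiple `X^j * p`, `j ≥ 1`, lies in `Vinf` only if `p = 0` -/
theorem eq_zero_of_X_pow_mul_mem_Vinf {p : k[X]} {j : ℕ} (hj : 1 ≤ j)
    (h : RatFunc.X ^ j * algebraMap k[X] (RatFunc k) p ∈ Vinf k) : p = 0 := by
  by_contra hp
  rw [mem_Vinf_iff'] at h
  have hp' : algebraMap k[X] (RatFunc k) p ≠ 0 := by simpa using hp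
  rcases h with h | h
  · exact (mul_ne_zero (pow_ne_zero _ RatFunc.X_ne_zero) hp') h
  · rw [RatFunc.intDegree_mul (pow_ne_zero _ RatFunc.X_ne_zero) hp', RatFunc.intDegree_polynomial,
      intDegree_X_pow] at h
    omega

theorem aeval_X_inv_mem_Vinf (p : k[X]) : aeval (RatFunc.X : RatFunc k)⁻¹ p ∈ Vinf k := by
  induction p using Polynomial.induction_on with
  | C a =>
    rw [aeval_C]
    exact C_mem_Vinf a
  | add p q hp hq => rw [map_add]; exact (Vinf k).add_mem _ _ hp hq
  | monomial n a _ =>
    rw [map_mul, aeval_C, map_pow, aeval_X]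
    exact (Vinf k).mul_mem _ _ (C_mem_Vinf a) ((Vinf k).pow_mem X_inv_mem_Vinf _)

open scoped Classical in
theorem inftyValuation_aeval_X_inv (q : k[X]) (hq : q.eval 0 ≠ 0) :
    RatFunc.inftyValuation k (aeval (RatFunc.X : RatFunc k)⁻¹ q) = 1 := by
  have hq0 : q.coeff 0 ≠ 0 := by rwa [coeff_zero_eq_eval_zero]
  have hdec : q = X * q.divX + C (q.coeff 0) := (X_mul_divX_add q).symm
  have h1 : aeval (RatFunc.X : RatFunc k)⁻¹ q =
      (RatFunc.X : RatFunc k)⁻¹ * aeval (RatFunc.X : RatFunc k)⁻¹ q.divX + RatFunc.C (q.coeff 0) := by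
    conv_lhs => rw [hdec]
    rw [map_add, map_mul, aeval_X, aeval_C]
    rfl
  have h2 : RatFunc.inftyValuation k (RatFunc.C (q.coeff 0)) = 1 := RatFunc.inftyValuation.C k hq0
  have h3 : RatFunc.inftyValuation k
      ((RatFunc.X : RatFunc k)⁻¹ * aeval (RatFunc.X : RatFunc k)⁻¹ q.divX) < 1 := by
    rw [map_mul]
    have ha : RatFunc.inftyValuation k (aeval (RatFunc.X : RatFunc k)⁻¹ q.divX) ≤ 1 :=
      (mem_Vinf_iff _).mp (aeval_X_inv_mem_Vinf _)
    have hb : RatFunc.inftyValuation k (RatFunc.X : RatFunc k)⁻¹ < 1 := by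
      rw [map_inv₀, RatFunc.inftyValuation.X, ← WithZero.exp_neg, ← WithZero.exp_zero,
        WithZero.exp_lt_exp]
      norm_num
    calc _ ≤ RatFunc.inftyValuation k (RatFunc.X : RatFunc k)⁻¹ * 1 := by gcongr
      _ < 1 := by rwa [mul_one]
  rw [h1, Valuation.map_add_eq_of_lt_right _ (by rw [h2]; exact h3), h2]

theorem aeval_X_inv_div_mem_Vinf (p q : k[X]) (hq : q.eval 0 ≠ 0) :
    aeval (RatFunc.X : RatFunc k)⁻¹ p / aeval (RatFunc.X : RatFunc k)⁻¹ q ∈ Vinf k := by
  classical
  rw [mem_Vinf_iff, map_div₀, inftyValuation_aeval_X_inv q hq, div_one]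
  exact (mem_Vinf_iff _).mp (aeval_X_inv_mem_Vinf p)

/-! ### finite extensions of `k(X)` -/

section Ext

variable {E : Type*} [Field E] [Algebra (RatFunc k) E] [FiniteDimensional (RatFunc k) E]

theorem norm_mem_of_isIntegral (V : ValuationSubring (RatFunc k)) {e : E} (he : IsIntegral V e) :
    Algebra.norm (RatFunc k) e ∈ V := by
  have h := Algebra.isIntegral_norm (RatFunc k) he
  obtain ⟨y, hy⟩ := IsIntegrallyClosed.isIntegral_iff.mp h
  rw [← hy]; exact y.2

theorem eq_zero_of_isIntegral [IsAlgClosed k] {e : E} (hfin : ∀ b : k, IsIntegral (Vfin b) e)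
    (hinf : IsIntegral (Vinf k) ((RatFunc.X : RatFunc k) • e)) : e = 0 := by
  obtain ⟨p, hp⟩ := mem_range_of_forall_mem_Vfin (Algebra.norm (RatFunc k) e)
    (fun b => norm_mem_of_isIntegral _ (hfin b))
  have h2 := norm_mem_of_isIntegral _ hinf
  rw [Algebra.smul_def, map_mul, Algebra.norm_algebraMap, ← hp] at h2
  have hpos : 1 ≤ Module.finrank (RatFunc k) E := Module.finrank_pos
  have h0 := eq_zero_of_X_pow_mul_mem_Vinf hpos h2
  rw [h0, map_zero] at hp
  exact Algebra.norm_eq_zero_iff.mp hp.symm

variable [Algebra k E] [IsScalarTower k (RatFunc k) E]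

omit [FiniteDimensional (RatFunc k) E] in
theorem isIntegral_Vinf_smul {r : RatFunc k} (hr : r ∈ Vinf k) {e : E}
    (he : IsIntegral (Vinf k) e) : IsIntegral (Vinf k) (r • e) := by
  have := IsIntegral.smul (⟨r, hr⟩ : Vinf k) he
  exact this

/-- one step of the filtration by the order at infinity -/
theorem finrank_le_add (W W' : Submodule k E) [FiniteDimensional k W] (hle : W' ≤ W)
    (τ : RatFunc k) (hW : ∀ g ∈ W, IsIntegral (Vinf k) (τ • g))
    (hW' : ∀ g ∈ W, IsIntegral (Vinf k) ((RatFunc.X * τ) • g) → g ∈ W') :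
    Module.finrank k W ≤ Module.finrank k W' + Module.finrank (RatFunc k) E := by
  classical
  set U : Submodule k W := W'.comap W.subtype with hU
  have h1 : Module.finrank k (W ⧸ U) + Module.finrank k U = Module.finrank k W :=
    Submodule.finrank_quotient_add_finrank U
  have h2 : Module.finrank k U = Module.finrank k W' :=
    (Submodule.comapSubtypeEquivOfLe hle).finrank_eq
  suffices h3 : Module.finrank k (W ⧸ U) ≤ Module.finrank (RatFunc k) E by omega
  set s := Module.finrank k (W ⧸ U) with hs
  let bq : Module.Basis (Fin s) k (W ⧸ U) := Module.finBasis k (W ⧸ U)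
  choose h hh using fun i => Submodule.Quotient.mk_surjective U (bq i)
  have hli : LinearIndependent (RatFunc k) (fun i => (h i : E)) := by
    rw [Fintype.linearIndependent_iff]
    intro r hr
    by_contra hne
    rw [not_forall] at hne
    obtain ⟨i1, hi1⟩ := hne
    obtain ⟨i0, -, hi0⟩ := Finset.exists_max_image Finset.univ
      (fun i => RatFunc.inftyValuation k (r i)) ⟨i1, Finset.mem_univ _⟩
    have hr0 : r i0 ≠ 0 := by
      intro h0
      have := hi0 i1 (Finset.mem_univ _)
      rw [h0, map_zero] at this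
      exact hi1 ((Valuation.zero_iff _).mp (le_antisymm this zero_le))
    have hmem : ∀ i, r i / r i0 ∈ Vinf k := by
      intro i
      show RatFunc.inftyValuation k (r i / r i0) ≤ 1
      rw [map_div₀]
      exact div_le_one_of_le₀ (hi0 i (Finset.mem_univ _)) zero_le
    choose c hc using fun i => exists_sub_C (hmem i)
    have hc0 : c i0 ≠ 0 := by
      intro h0
      have := hc i0
      rw [h0, div_self hr0, map_zero, sub_zero] at this
      rcases this with h | h
      · exact one_ne_zero h
      · simp at h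
    -- the combination
    have hsum : ∑ i, (r i / r i0) • (h i : E) = 0 := by
      have : ∑ i, (r i / r i0) • (h i : E) = (r i0)⁻¹ • ∑ i, r i • (h i : E) := by
        rw [Finset.smul_sum]
        refine Finset.sum_congr rfl fun i _ => ?_
        rw [smul_smul, div_eq_inv_mul]
      rw [this, hr, smul_zero]
    have hg : (∑ i, c i • (h i : E)) = - ∑ i, (r i / r i0 - RatFunc.C (c i)) • (h i : E) := by
      rw [eq_neg_iff_add_eq_zero, ← Finset.sum_add_distrib, ← hsum]
      refine Finset.sum_congr rfl fun i _ => ?_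
      rw [sub_smul, ← RatFunc.algebraMap_eq_C, algebraMap_smul]
      abel
    have hgW : (∑ i, c i • h i : W) ∈ U := by
      rw [hU, Submodule.mem_comap]
      apply hW' _ (Submodule.coe_mem _)
      have hcoe : W.subtype (∑ i, c i • h i) = ∑ i, c i • (h i : E) := by
        simp
      rw [Submodule.subtype_apply] at hcoe
      rw [hcoe, hg, smul_neg, Finset.smul_sum]
      refine IsIntegral.neg (IsIntegral.sum _ fun i _ => ?_)
      have : (RatFunc.X * τ) • (r i / r i0 - RatFunc.C (c i)) • (h i : E) =
          (RatFunc.X * (r i / r i0 - RatFunc.C (c i))) • (τ • (h i : E)) := by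
        rw [smul_smul, smul_smul]; congr 1; ring
      rw [this]
      exact isIntegral_Vinf_smul (X_mul_mem_Vinf (hc i)) (hW _ (h i).2)
    have hq : ∑ i, c i • bq i = 0 := by
      have h0 : U.mkQ (∑ i, c i • h i) = 0 := (Submodule.Quotient.mk_eq_zero U).mpr hgW
      rw [map_sum] at h0
      rw [← h0]
      refine Finset.sum_congr rfl fun i _ => ?_
      rw [map_smul, Submodule.mkQ_apply, hh]
    exact hc0 (Fintype.linearIndependent_iff.mp bq.linearIndependent c hq i0)
  have := hli.fintype_card_le_finrank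
  simpa using this


omit [FiniteDimensional (RatFunc k) E] in
/-- the subspace of `V` of elements `g` with `τ • g` integral at infinity -/
def twistSub (V : Submodule k E) (τ : RatFunc k) : Submodule k E where
  carrier := {g | g ∈ V ∧ IsIntegral (Vinf k) (τ • g)}
  zero_mem' := ⟨V.zero_mem, by rw [smul_zero]; exact isIntegral_zero⟩
  add_mem' := fun {a b} ha hb => ⟨V.add_mem ha.1 hb.1, by
    rw [smul_add]; exact ha.2.add hb.2⟩
  smul_mem' := fun c g hg => ⟨V.smul_mem c hg.1, by
    have : τ • c • g = RatFunc.C c • (τ • g) := by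
      rw [← RatFunc.algebraMap_eq_C, algebraMap_smul, smul_comm]
    rw [this]
    exact isIntegral_Vinf_smul (C_mem_Vinf c) hg.2⟩

omit [FiniteDimensional (RatFunc k) E] in
theorem mem_twistSub {V : Submodule k E} {τ : RatFunc k} {g : E} :
    g ∈ twistSub V τ ↔ g ∈ V ∧ IsIntegral (Vinf k) (τ • g) := Iff.rfl

omit [FiniteDimensional (RatFunc k) E] in
theorem twistSub_le (V : Submodule k E) (τ : RatFunc k) : twistSub V τ ≤ V := fun _ h => h.1

/-- **Dimension bound on the special fibre, abstract form.** -/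
theorem finrank_le_of_isIntegral [IsAlgClosed k] (n : ℕ) (V : Submodule k E)
    [FiniteDimensional k V]
    (hfin : ∀ g ∈ V, ∀ b : k, IsIntegral (Vfin b) g)
    (hinf : ∀ g ∈ V, IsIntegral (Vinf k) (((RatFunc.X : RatFunc k)⁻¹ ^ n) • g)) :
    Module.finrank k V ≤ (n + 1) * Module.finrank (RatFunc k) E := by
  set W : ℕ → Submodule k E := fun j => twistSub V (RatFunc.X ^ j * (RatFunc.X : RatFunc k)⁻¹ ^ n)
    with hWdef
  have hfd : ∀ j, FiniteDimensional k (W j) := fun j =>
    Submodule.finiteDimensional_of_le (twistSub_le V _)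
  have hX0 : (RatFunc.X : RatFunc k) ≠ 0 := RatFunc.X_ne_zero
  have hkey : ∀ i j, i + j = n + 1 →
      Module.finrank k (W j) ≤ i * Module.finrank (RatFunc k) E := by
    intro i
    induction i with
    | zero =>
      intro j hj
      have hj' : j = n + 1 := by omega
      subst hj'
      have hbot : W (n + 1) = ⊥ := by
        rw [eq_bot_iff]
        intro g hg
        rw [Submodule.mem_bot]
        obtain ⟨hgV, hgI⟩ := hg
        have hX : (RatFunc.X ^ (n + 1) * (RatFunc.X : RatFunc k)⁻¹ ^ n) = RatFunc.X := by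
          rw [pow_succ, inv_pow, mul_comm (RatFunc.X ^ n), mul_assoc,
            mul_inv_cancel₀ (pow_ne_zero _ RatFunc.X_ne_zero), mul_one]
        rw [hX] at hgI
        exact eq_zero_of_isIntegral (hfin g hgV) hgI
      have h0 : Module.finrank k (W (n + 1)) = 0 := by
        haveI := hfd (n + 1)
        exact Submodule.finrank_eq_zero.mpr hbot
      omega
    | succ i ih =>
      intro j hj
      have ih' := ih (j + 1) (by omega)
      haveI := hfd j
      have hle : W (j + 1) ≤ W j := by
        intro g hg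
        refine ⟨hg.1, ?_⟩
        have : (RatFunc.X ^ j * (RatFunc.X : RatFunc k)⁻¹ ^ n) • g =
            (RatFunc.X : RatFunc k)⁻¹ • ((RatFunc.X ^ (j + 1) * (RatFunc.X : RatFunc k)⁻¹ ^ n) • g) := by
          rw [smul_smul]; congr 1
          rw [pow_succ]
          field_simp
        rw [this]
        exact isIntegral_Vinf_smul X_inv_mem_Vinf hg.2
      have hstep := finrank_le_add (W j) (W (j + 1)) hle
        (RatFunc.X ^ j * (RatFunc.X : RatFunc k)⁻¹ ^ n) (fun g hg => hg.2)
        (fun g hg hI => ⟨hg.1, by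
          have : (RatFunc.X ^ (j + 1) * (RatFunc.X : RatFunc k)⁻¹ ^ n) =
              RatFunc.X * (RatFunc.X ^ j * (RatFunc.X : RatFunc k)⁻¹ ^ n) := by ring
          rw [this]; exact hI⟩)
      calc Module.finrank k (W j)
          ≤ Module.finrank k (W (j + 1)) + Module.finrank (RatFunc k) E := hstep
        _ ≤ i * Module.finrank (RatFunc k) E + Module.finrank (RatFunc k) E := by omega
        _ = (i + 1) * Module.finrank (RatFunc k) E := by ring
  have h0 := hkey (n + 1) 0 (by omega)
  have hV : V ≤ W 0 := by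
    intro g hg
    refine ⟨hg, ?_⟩
    simpa using hinf g hg
  haveI := hfd 0
  exact (Submodule.finrank_mono hV).trans h0

end Ext

/-! ### explicit form -/

section Explicit

variable {E : Type*} [Field E]

theorem C_mem_Vfin (b c : k) : RatFunc.C c ∈ Vfin b := by
  rw [← RatFunc.algebraMap_C]
  exact algebraMap_mem_Vfin b _

theorem isIntegral_smul_of_mem [Algebra (RatFunc k) E] (V : ValuationSubring (RatFunc k))
    {r : RatFunc k} (hr : r ∈ V) {e : E} (he : IsIntegral V e) : IsIntegral V (r • e) :=
  IsIntegral.smul (⟨r, hr⟩ : V) he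

/-- a root of a monic polynomial whose coefficients come from `V` is integral over `V` -/
theorem isIntegral_of_monic [Algebra (RatFunc k) E] (V : ValuationSubring (RatFunc k)) (e : E)
    (P : E[X]) (hP : P.Monic)
    (hc : ∀ j, ∃ a ∈ V, algebraMap (RatFunc k) E a = P.coeff j) (he : P.eval e = 0) :
    IsIntegral V e := by
  have hl : P ∈ lifts (algebraMap V E) := by
    rw [lifts_iff_coeff_lifts]
    intro j
    obtain ⟨a, ha, haj⟩ := hc j
    exact ⟨⟨a, ha⟩, haj⟩
  obtain ⟨Q, hQ, -, hQm⟩ := lifts_and_natDegree_eq_and_monic hl hP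
  refine ⟨Q, hQm, ?_⟩
  rw [eval₂_eq_eval_map, hQ, he]

variable [Algebra k E]

/-- `a` is a quotient `p(Y)/q(Y)` with `q(b) ≠ 0`: "`a ∈ k(Y)` is regular at `Y = b`" -/
def RegAt (Y : E) (b : k) (a : E) : Prop :=
  ∃ p q : k[X], q.eval b ≠ 0 ∧ a = aeval Y p / aeval Y q

/-- **Dimension bound on the special fibre, explicit form.**  `E ⊇ k(X₀)` of degree `≤ μ`
(spanned by `θ`); `g₁, …, g_d` linearly independent over `k`, each integral over the local ring
of the `X₀`-line at every finite point, and `X₀⁻ⁿ gᵢ` integral over the local ring at infinity.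
Then `d ≤ (n+1) μ`. -/
theorem card_le_of_regular [IsAlgClosed k] (X₀ : E) (hX : ∀ p : k[X], aeval X₀ p = 0 → p = 0)
    (μ : ℕ) (θ : Fin μ → E)
    (hθ : ∀ e : E, ∃ p q : Fin μ → k[X], e = ∑ i, aeval X₀ (p i) / aeval X₀ (q i) * θ i)
    (n d : ℕ) (g : Fin d → E) (hli : LinearIndependent k g)
    (hfin : ∀ i, ∀ b : k, ∃ P : E[X], P.Monic ∧ (∀ j, RegAt X₀ b (P.coeff j)) ∧ P.eval (g i) = 0)
    (hinf : ∀ i, ∃ P : E[X], P.Monic ∧ (∀ j, RegAt X₀⁻¹ (0 : k) (P.coeff j)) ∧
      P.eval (X₀⁻¹ ^ n * g i) = 0) :
    d ≤ (n + 1) * μ := by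
  classical
  have hφ : nonZeroDivisors k[X] ≤
      Submonoid.comap (aeval X₀ : k[X] →ₐ[k] E) (nonZeroDivisors E) := by
    intro p hp
    rw [Submonoid.mem_comap, mem_nonZeroDivisors_iff_ne_zero]
    intro h
    exact (nonZeroDivisors.ne_zero hp) (hX p h)
  let ι : RatFunc k →ₐ[k] E := RatFunc.liftAlgHom (aeval X₀) hφ
  letI : Algebra (RatFunc k) E := ι.toRingHom.toAlgebra
  haveI : IsScalarTower k (RatFunc k) E :=
    IsScalarTower.of_algebraMap_eq fun c => (ι.commutes c).symm
  have hι : ∀ p q : k[X], algebraMap (RatFunc k) E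
      (algebraMap k[X] (RatFunc k) p / algebraMap k[X] (RatFunc k) q) =
      aeval X₀ p / aeval X₀ q := fun p q => RatFunc.liftAlgHom_apply_div _ hφ p q
  have hιX : algebraMap (RatFunc k) E RatFunc.X = X₀ := by
    have := hι X 1
    rwa [map_one, div_one, map_one, div_one, aeval_X, RatFunc.algebraMap_X] at this
  have hιinv : ∀ p : k[X], algebraMap (RatFunc k) E (aeval (RatFunc.X : RatFunc k)⁻¹ p) =
      aeval X₀⁻¹ p := by
    intro p
    have h1 : algebraMap (RatFunc k) E (aeval (RatFunc.X : RatFunc k)⁻¹ p) =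
        ι (aeval (RatFunc.X : RatFunc k)⁻¹ p) := rfl
    rw [h1, ← aeval_algHom_apply, map_inv₀]
    have h2 : ι RatFunc.X = X₀ := hιX
    rw [h2]
  -- finite-dimensionality
  have hspan : (⊤ : Submodule (RatFunc k) E) ≤ Submodule.span (RatFunc k) (Set.range θ) := by
    intro e _
    obtain ⟨p, q, rfl⟩ := hθ e
    refine Submodule.sum_mem _ fun i _ => ?_
    rw [← hι, ← Algebra.smul_def]
    exact Submodule.smul_mem _ _ (Submodule.subset_span ⟨i, rfl⟩)
  have hspan' : Submodule.span (RatFunc k) (Set.range θ) = ⊤ := top_le_iff.mp hspan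
  haveI : FiniteDimensional (RatFunc k) E :=
    ⟨hspan' ▸ Submodule.fg_span (Set.finite_range θ)⟩
  have hμ : Module.finrank (RatFunc k) E ≤ μ := by
    have h1 := finrank_range_le_card (R := RatFunc k) θ
    rw [Set.finrank, hspan', finrank_top, Fintype.card_fin] at h1
    exact h1
  -- integrality of the generators
  have hfin' : ∀ i, ∀ b : k, IsIntegral (Vfin b) (g i) := by
    intro i b
    obtain ⟨P, hP, hc, he⟩ := hfin i b
    refine isIntegral_of_monic (Vfin b) (g i) P hP (fun j => ?_) he
    obtain ⟨p, q, hq, hpq⟩ := hc j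
    exact ⟨_, div_mem_Vfin b p q hq, by rw [hι, hpq]⟩
  have hinf' : ∀ i, IsIntegral (Vinf k) (((RatFunc.X : RatFunc k)⁻¹ ^ n) • g i) := by
    intro i
    obtain ⟨P, hP, hc, he⟩ := hinf i
    have hsm : ((RatFunc.X : RatFunc k)⁻¹ ^ n) • g i = X₀⁻¹ ^ n * g i := by
      rw [Algebra.smul_def, map_pow, map_inv₀, hιX]
    rw [hsm]
    refine isIntegral_of_monic (Vinf k) _ P hP (fun j => ?_) he
    obtain ⟨p, q, hq, hpq⟩ := hc j
    exact ⟨_, aeval_X_inv_div_mem_Vinf p q hq, by rw [map_div₀, hιinv, hιinv, hpq]⟩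
  -- the span
  set V : Submodule k E := Submodule.span k (Set.range g) with hV
  have hVfin : ∀ e ∈ V, ∀ b : k, IsIntegral (Vfin b) e := by
    intro e he b
    induction he using Submodule.span_induction with
    | mem x hx =>
      obtain ⟨i, rfl⟩ := hx
      exact hfin' i b
    | zero => exact isIntegral_zero
    | add x y _ _ hx hy => exact hx.add hy
    | smul c x _ hx =>
      have : c • x = RatFunc.C c • x := by
        rw [← RatFunc.algebraMap_eq_C, algebraMap_smul]
      rw [this]
      exact isIntegral_smul_of_mem _ (C_mem_Vfin b c) hx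
  have hVinf : ∀ e ∈ V, IsIntegral (Vinf k) (((RatFunc.X : RatFunc k)⁻¹ ^ n) • e) := by
    intro e he
    induction he using Submodule.span_induction with
    | mem x hx =>
      obtain ⟨i, rfl⟩ := hx
      exact hinf' i
    | zero => rw [smul_zero]; exact isIntegral_zero
    | add x y _ _ hx hy => rw [smul_add]; exact hx.add hy
    | smul c x _ hx =>
      have : ((RatFunc.X : RatFunc k)⁻¹ ^ n) • c • x =
          RatFunc.C c • (((RatFunc.X : RatFunc k)⁻¹ ^ n) • x) := by
        rw [← RatFunc.algebraMap_eq_C, algebraMap_smul, smul_comm]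
      rw [this]
      exact isIntegral_smul_of_mem _ (C_mem_Vinf c) hx
  haveI : FiniteDimensional k V := FiniteDimensional.span_of_finite k (Set.finite_range g)
  have hmain := finrank_le_of_isIntegral n V hVfin hVinf
  have hd : Module.finrank k V = d := by
    rw [hV, finrank_span_eq_card hli, Fintype.card_fin]
  calc d = Module.finrank k V := hd.symm
    _ ≤ (n + 1) * Module.finrank (RatFunc k) E := hmain
    _ ≤ (n + 1) * μ := Nat.mul_le_mul_left _ hμ

end Explicit

end Fermat.Agent.S18.H57
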