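/-
S18 / wave 4, package C2 (helper57): `card_le_of_approx` (leaf L2 of the skeleton of helper74).

An orthonormal family whose members are, modulo `m_O`, pole-free on every finite residue disc and
have poles of order `≤ n` on the disc at infinity has at most `(n+1) [F : K(x)]` members.
Assembly of `SpecialFibre` (count on the special fibre) and `GaussRed` (bridge), using the landed
`setup_inv` of H64 for the chart at infinity.
-/
import Mathlib
import Fermat.Agent.S18.H57.SpecialFibre
import Fermat.Agent.S18.H57.GaussRed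
import Fermat.Agent.S18.H64.SetupInv

set_option autoImplicit false
set_option linter.style.haveILetI false
set_option linter.unusedSectionVars false

open AlgebraicCurve Polynomial IntermediateField

namespace Fermat.Agent.S18.H57

open Fermat.Agent.S18.H74 Fermat.Agent.S18.H49

noncomputable section

/-- `card_le_of_regular` for a ring homomorphism instead of an algebra structure. -/
theorem card_le_of_regular_hom {k E : Type*} [Field k] [Field E] [IsAlgClosed k] (φ : k →+* E)
    (X₀ : E) (hX : ∀ p : k[X], eval₂ φ X₀ p = 0 → p = 0)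
    (μ : ℕ) (θ : Fin μ → E)
    (hθ : ∀ e : E, ∃ p q : Fin μ → k[X], e = ∑ i, eval₂ φ X₀ (p i) / eval₂ φ X₀ (q i) * θ i)
    (n d : ℕ) (g : Fin d → E) (hli : ∀ c : Fin d → k, ∑ i, φ (c i) * g i = 0 → ∀ i, c i = 0)
    (hfin : ∀ i, ∀ b : k, ∃ P : E[X], P.Monic ∧
      (∀ j, ∃ p q : k[X], q.eval b ≠ 0 ∧ P.coeff j = eval₂ φ X₀ p / eval₂ φ X₀ q) ∧
      P.eval (g i) = 0)
    (hinf : ∀ i, ∃ P : E[X], P.Monic ∧
      (∀ j, ∃ p q : k[X], q.eval 0 ≠ 0 ∧ P.coeff j = eval₂ φ X₀⁻¹ p / eval₂ φ X₀⁻¹ q) ∧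
      P.eval (X₀⁻¹ ^ n * g i) = 0) :
    d ≤ (n + 1) * μ := by
  letI : Algebra k E := φ.toAlgebra
  refine card_le_of_regular X₀ hX μ θ hθ n d g ?_ hfin hinf
  rw [Fintype.linearIndependent_iff]
  intro c hc
  exact hli c hc

/-- The residue field of a valuation ring of an algebraically closed field is algebraically
closed. -/
theorem isAlgClosed_residueField {K : Type*} [Field K] [IsAlgClosed K] (A : ValuationSubring K) :
    IsAlgClosed (IsLocalRing.ResidueField A) := by
  refine IsAlgClosed.of_exists_root _ fun p hp hirr => ?_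
  have hl : p ∈ lifts (IsLocalRing.residue A) := by
    rw [lifts_iff_coeff_lifts]
    intro n
    exact IsLocalRing.residue_surjective _
  obtain ⟨q, hq, hqdeg, hqm⟩ := lifts_and_natDegree_eq_and_monic hl hp
  have hdeg : (q.map (algebraMap A K)).degree ≠ 0 := by
    rw [degree_map_eq_of_injective (IsFractionRing.injective A K)]
    intro h0
    have h1 : q.natDegree = 0 := natDegree_eq_zero_iff_degree_le_zero.mpr h0.le
    have h2 : p.natDegree = 0 := by rw [← hqdeg, h1]
    exact hirr.natDegree_pos.ne' h2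
  obtain ⟨α, hα⟩ := IsAlgClosed.exists_root (q.map (algebraMap A K)) hdeg
  have hint : IsIntegral A α := ⟨q, hqm, by rwa [IsRoot.def, eval_map] at hα⟩
  obtain ⟨a, rfl⟩ := IsIntegrallyClosed.isIntegral_iff.mp hint
  refine ⟨IsLocalRing.residue A a, ?_⟩
  rw [← hq, eval_map, eval₂_at_apply]
  have h1 : (q.map (algebraMap A K)).eval (algebraMap A K a) = 0 := hα
  rw [eval_map, eval₂_at_apply] at h1
  rw [(map_eq_zero_iff _ (IsFractionRing.injective A K)).mp h1, map_zero]

variable {K : Type*} [Field K] {A : ValuationSubring K} {F : Type*} [Field F] [Algebra K F]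
  {O : ValuationSubring F} {x : F}

/-- **(L2) Dimension bound on the special fibre** (package C2).
An orthonormal family whose members are, modulo `m_O`, pole-free on every finite residue disc
and have poles of order `≤ n` on the disc at infinity, has at most `(n+1) μ` members. -/
theorem card_le_of_approx [IsAlgClosed K] [CharZero K] (hA : A ≠ ⊤) (hS : Setup K A F O x) :
    ∃ c₀ : ℕ, ∀ (n d : ℕ) (f : Fin d → F), IsON A O f →
      (∀ i, ∀ b ∈ A, ∃ f' ∈ discRing A O x b, f i - f' ∈ O.nonunits) →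
      (∀ i, ∃ f' : F, x⁻¹ ^ n * f' ∈ discRing A O x⁻¹ 0 ∧ f i - f' ∈ O.nonunits) →
      d ≤ (n + c₀) * Module.finrank K⟮x⟯ F := by
  classical
  refine ⟨1, fun n d f hON hfinD hinfD => ?_⟩
  have hmem := hS.mem_iff
  have hg : GaussHyp A O x := hS.gauss
  haveI := hS.finite
  obtain ⟨θ, hθ, -⟩ := hS.basis
  have hx : x ∈ O := z_mem_of_gauss hA hmem hg
  have hS' : Setup K A F O x⁻¹ := Fermat.Agent.S18.H64.setup_inv hS
  have hg' : GaussHyp A O x⁻¹ := hS'.gauss
  haveI := hS'.finite
  obtain ⟨θ', hθ', -⟩ := hS'.basis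
  have hx' : x⁻¹ ∈ O := z_mem_of_gauss hA hmem hg'
  have hx0 : x ≠ 0 := by
    have := aeval_ne_zero_of_gauss hA hmem hg (p := X) X_ne_zero
    rwa [aeval_X] at this
  have hfO : ∀ i, f i ∈ O := by
    intro i
    have h := (hON (fun j => if j = i then 1 else 0)).mpr (fun j => by
      split_ifs
      · exact A.one_mem
      · exact A.zero_mem)
    have h2 : (∑ j, (if j = i then (1 : K) else 0) • f j) = f i := by
      rw [Finset.sum_eq_single i]
      · simp
      · intro j _ hj; simp [hj]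
      · intro h; exact absurd (Finset.mem_univ i) h
    rwa [h2] at h
  obtain ⟨θb, hθb⟩ := exists_residue_span hA hmem hg hθ hx
  haveI : IsAlgClosed (IsLocalRing.ResidueField A) := isAlgClosed_residueField A
  have hxinv : IsLocalRing.residue O ⟨x⁻¹, hx'⟩ = (IsLocalRing.residue O ⟨x, hx⟩)⁻¹ := by
    apply eq_inv_of_mul_eq_one_left
    rw [← map_mul]
    have : (⟨x⁻¹, hx'⟩ : O) * ⟨x, hx⟩ = 1 := Subtype.ext (inv_mul_cancel₀ hx0)
    rw [this, map_one]
  refine card_le_of_regular_hom (resMap hmem) (IsLocalRing.residue O ⟨x, hx⟩)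
    (fun p hp => by
      by_contra h
      exact eval₂_resMap_ne_zero hA hmem hg hx p h hp)
    _ θb hθb n d (fun i => IsLocalRing.residue O ⟨f i, hfO i⟩)
    (residue_linearIndependent hA hmem hS.scale f hON hfO) ?_ ?_
  · intro i bb
    obtain ⟨b, rfl⟩ := IsLocalRing.residue_surjective bb
    obtain ⟨f', hf', hdiff⟩ := hfinD i b b.2
    obtain ⟨P, hP, hc, he⟩ := exists_monic_regular hA hmem hg hθ hx b f' hf'
    refine ⟨P, hP, hc, ?_⟩
    rw [residue_eq_of_sub_mem_nonunits (hfO i) hf'.1 hdiff]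
    exact he
  · intro i
    obtain ⟨f', hf', hdiff⟩ := hinfD i
    have hf'O : f' ∈ O := by
      have := O.sub_mem (hfO i) (mem_of_mem_nonunits hdiff)
      simpa using this
    have hf'' : x⁻¹ ^ n * f' ∈ discRing A O x⁻¹ (((0 : A)) : K) := hf'
    obtain ⟨P, hP, hc, he⟩ := exists_monic_regular hA hmem hg' hθ' hx' (0 : A) (x⁻¹ ^ n * f') hf''
    refine ⟨P, hP, ?_, ?_⟩
    · intro j
      obtain ⟨p, q, hq, hpq⟩ := hc j
      refine ⟨p, q, ?_, ?_⟩
      · rwa [map_zero] at hq
      · rw [hpq, hxinv]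
    · have hres : IsLocalRing.residue O ⟨x⁻¹ ^ n * f', hf''.1⟩ =
          (IsLocalRing.residue O ⟨x, hx⟩)⁻¹ ^ n * IsLocalRing.residue O ⟨f i, hfO i⟩ := by
        have h1 : (⟨x⁻¹ ^ n * f', hf''.1⟩ : O) = (⟨x⁻¹, hx'⟩ : O) ^ n * ⟨f', hf'O⟩ :=
          Subtype.ext rfl
        rw [h1, map_mul, map_pow, hxinv, residue_eq_of_sub_mem_nonunits (hfO i) hf'O hdiff]
      rw [← hres]
      exact he

end

end Fermat.Agent.S18.H57
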