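/-
S18 / wave 4, package C2 (helper57): pole-free functions on the generic fibre.

`F/K` a function field, `x ∈ F` transcendental, `F/K(x)` finite, `char K = 0`.
* `exists_mul_isIntegral` : if `f` has no pole at the places over `x = c`, then `s(x) f` is integral
  over `K[x]` for a polynomial `s` with `s(c) ≠ 0`.
* `minpoly_smul_eq_scaleRoots` : the minimal polynomial of `a y` for a nonzero scalar `a`.
* `minpoly_coeff_regular` : the coefficients of the minimal polynomial of such an `f` over `K(x)`
  have no pole at `x = c`.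
Built on the place dictionary of H42 (Chart).
-/
import Mathlib
import Fermat.Agent.S18.H42.Chart

set_option autoImplicit false

open AlgebraicCurve IsDedekindDomain Polynomial IntermediateField
open scoped IntermediateField.algebraAdjoinAdjoin

namespace Fermat.Agent.S18.H57

open Fermat.Agent.S18.H42
open scoped Fermat.Agent.S18.H42.ChartInst

noncomputable section

/-- The minimal polynomial of `a y`, `a ≠ 0` a scalar. -/
theorem minpoly_smul_eq_scaleRoots {L F : Type*} [Field L] [Field F] [Algebra L F] (a : L)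
    (ha : a ≠ 0) (y : F) (hy : IsIntegral L y) :
    minpoly L (algebraMap L F a * y) = scaleRoots (minpoly L y) a := by
  symm
  refine minpoly.unique L _ ((monic_scaleRoots_iff a).mpr (minpoly.monic hy))
    (scaleRoots_aeval_eq_zero (minpoly.aeval L y)) ?_
  intro q hq hq0
  rw [degree_scaleRoots]
  have h1 : aeval (algebraMap L F a⁻¹ * (algebraMap L F a * y)) (scaleRoots q a⁻¹) = 0 :=
    scaleRoots_aeval_eq_zero hq0
  have h2 : algebraMap L F a⁻¹ * (algebraMap L F a * y) = y := by
    rw [← mul_assoc, ← map_mul, inv_mul_cancel₀ ha, map_one, one_mul]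
  rw [h2] at h1
  have h3 := minpoly.min L y ((monic_scaleRoots_iff a⁻¹).mpr hq) h1
  rwa [degree_scaleRoots] at h3

variable {K : Type*} {F : Type*} [Field K] [Field F] [Algebra K F] {x : F}
  [hx : Fact (Transcendental K x)] [FiniteDimensional K⟮x⟯ F] [CharZero K]

omit hx [FiniteDimensional K⟮x⟯ F] [CharZero K] in
theorem aeval_mem_Rx (p : K[X]) : aeval x p ∈ Rx K x := by
  rw [Rx, Algebra.adjoin_singleton_eq_range_aeval]
  exact ⟨p, rfl⟩

omit hx [FiniteDimensional K⟮x⟯ F] [CharZero K] in
theorem exists_aeval_eq (r : Rx K x) : ∃ p : K[X], aeval x p = (r : F) := by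
  have h : (r : F) ∈ Algebra.adjoin K {x} := r.2
  rw [Algebra.adjoin_singleton_eq_range_aeval] at h
  exact h

/-- If `f` has no pole at the places over `x = c`, then `s(x) f` is integral over `K[x]` for some
polynomial `s` with `s(c) ≠ 0`. -/
theorem exists_mul_isIntegral (c : K) (f : F)
    (hf : ∀ P : Place K F, 0 < P.ord (x - algebraMap K F c) → 0 ≤ P.ord f) :
    ∃ s : K[X], s.eval c ≠ 0 ∧ IsIntegral (Rx K x) (aeval x s * f) := by
  classical
  by_cases hf0 : f = 0
  · exact ⟨1, by simp, by rw [hf0, mul_zero]; exact isIntegral_zero⟩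
  -- a denominator
  have halg : IsAlgebraic (Rx K x) f := by
    have h1 : IsAlgebraic K⟮x⟯ f := Algebra.IsAlgebraic.isAlgebraic f
    exact (IsFractionRing.isAlgebraic_iff (Rx K x) K⟮x⟯ F).mpr h1
  obtain ⟨γ, hγ0, hγ⟩ := halg.exists_integral_multiple
  obtain ⟨g₀, hg₀⟩ := exists_aeval_eq γ
  have hg₀0 : g₀ ≠ 0 := by
    rintro rfl
    apply hγ0
    apply Subtype.ext
    rw [← hg₀, map_zero]; rfl
  obtain ⟨s, hs, hsdvd⟩ := exists_eq_pow_rootMultiplicity_mul_and_not_dvd g₀ hg₀0 c
  set e := rootMultiplicity c g₀ with he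
  have hsc : s.eval c ≠ 0 := by
    intro h
    exact hsdvd (dvd_iff_isRoot.mpr h)
  refine ⟨s, hsc, ?_⟩
  -- the element of `Bx`
  have hγf : (γ • f : F) = (x - algebraMap K F c) ^ e * (aeval x s * f) := by
    rw [Algebra.smul_def]
    show (γ : F) * f = _
    rw [← hg₀, hs, map_mul, map_pow, map_sub, aeval_X, aeval_C]
    ring
  have hval : ∀ v : HeightOneSpectrum (Bx K x), v.valuation F (aeval x s * f) ≤ 1 := by
    intro v
    have hsB : v.valuation F (aeval x s) ≤ 1 := by
      have hsint : IsIntegral (Rx K x) (aeval x s) := by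
        have : aeval x s = algebraMap (Rx K x) F ⟨aeval x s, aeval_mem_Rx s⟩ := rfl
        rw [this]
        exact isIntegral_algebraMap
      have : aeval x s = algebraMap (Bx K x) F ⟨aeval x s, hsint⟩ := rfl
      rw [this]
      exact v.valuation_le_one _
    by_cases hv : xsubB K x c ∈ v.asIdeal
    · -- the place lies over `c`
      have hP := (chartPlace_over_iff v c).mpr hv
      have h0 := hf _ hP
      rw [chartPlace_ord v hf0, primeOrd_nonneg_iff v hf0] at h0
      rw [map_mul]
      exact mul_le_one' hsB h0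
    · have h1 : v.valuation F (x - algebraMap K F c) = 1 := by
        rw [← coe_xsubB, HeightOneSpectrum.valuation_of_algebraMap,
          HeightOneSpectrum.intValuation_eq_one_iff]
        exact hv
      have h2 : v.valuation F (γ • f) ≤ 1 := by
        have : (γ • f : F) = algebraMap (Bx K x) F ⟨γ • f, hγ⟩ := rfl
        rw [this]
        exact v.valuation_le_one _
      rw [hγf, map_mul, map_pow, h1, one_pow, one_mul] at h2
      exact h2
  obtain ⟨β, hβ⟩ := HeightOneSpectrum.mem_integers_of_valuation_le_one F (aeval x s * f) hval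
  rw [← hβ]
  exact β.2

/-- The coefficients of the minimal polynomial over `K(x)` of a function without poles over
`x = c` have no pole at `c`. -/
theorem minpoly_coeff_regular (c : K) (f : F)
    (hf : ∀ P : Place K F, 0 < P.ord (x - algebraMap K F c) → 0 ≤ P.ord f) (j : ℕ) :
    ∃ α s : K[X], s.eval c ≠ 0 ∧
      (((minpoly K⟮x⟯ f).coeff j : K⟮x⟯) : F) * aeval x s = aeval x α := by
  obtain ⟨s, hs, hint⟩ := exists_mul_isIntegral c f hf
  have hfint : IsIntegral K⟮x⟯ f := Algebra.IsIntegral.isIntegral f
  set a : K⟮x⟯ := algebraMap (Rx K x) K⟮x⟯ ⟨aeval x s, aeval_mem_Rx s⟩ with ha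
  have haF : algebraMap K⟮x⟯ F a = aeval x s := rfl
  have ha0 : a ≠ 0 := by
    intro h
    have h1 : aeval x s = 0 := by rw [← haF, h, map_zero]
    have h2 : s = 0 := by
      by_contra hne
      exact hx.out ⟨s, hne, h1⟩
    rw [h2] at hs
    simp at hs
  have h1 := minpoly_smul_eq_scaleRoots a ha0 f hfint
  rw [haF] at h1
  have h2 := minpoly.isIntegrallyClosed_eq_field_fractions' K⟮x⟯ hint
  rw [h1] at h2
  have h3 := congrArg (fun p => p.coeff j) h2
  simp only [coeff_scaleRoots, coeff_map] at h3
  set r := (minpoly K⟮x⟯ f).natDegree with hr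
  obtain ⟨α, hα⟩ := exists_aeval_eq ((minpoly (Rx K x) (aeval x s * f)).coeff j)
  refine ⟨α, s ^ (r - j), by rw [eval_pow]; exact pow_ne_zero _ hs, ?_⟩
  have h4 := congrArg (algebraMap K⟮x⟯ F) h3
  rw [map_mul, map_pow, haF] at h4
  rw [hα, map_pow]
  exact h4

end

end Fermat.Agent.S18.H57
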