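/-
S18 / wave 4, package C2 (helper57): the bridge from the abstract `Setup` to the special fibre.

`A ⊆ K` a valuation ring, `O ⊆ F` a "Gauss" valuation ring with `O ∩ K = A`, `z ∈ F` a base
function satisfying the Gauss hypothesis, `θ` an orthonormal `K(z)`-basis of `F`.
* `resMap` : the residue field of `A` inside the residue field of `O`; `eval₂_resMap`.
* `exists_coprime_repr`, `residue_eq_div` : Gauss-integral elements of `K(z)` and their residues.
* `isIntegral_gaussRing` : `O` is integral over `O ∩ K(z)`.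
* `exists_residue_span` : the residue field of `O` is spanned over `k(z̄)` by the residues of `θ`.
* `residue_linearIndependent` : an orthonormal family has linearly independent residues.
* `exists_monic_regular` : a Gauss-integral function without poles on the residue disc of `b` has
  a residue which is integral over the local ring of the `z̄`-line at `b̄`.
-/
import Mathlib
import Fermat.Agent.S18.H74.CoreDefs
import Fermat.Agent.S18.H49.Cartesian
import Fermat.Agent.S18.H42.NewtonDisc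
import Fermat.Agent.S18.H57.PoleFree

set_option autoImplicit false
set_option linter.style.haveILetI false
set_option linter.unusedSectionVars false

open AlgebraicCurve Polynomial IntermediateField

namespace Fermat.Agent.S18.H57

open Fermat.Agent.S18.H74 Fermat.Agent.S18.H49

noncomputable section

variable {K : Type*} [Field K] {A : ValuationSubring K} {F : Type*} [Field F] [Algebra K F]
  {O : ValuationSubring F}

/-! ### units of a valuation subring -/

theorem isUnit_mk_iff {f : F} (hf : f ∈ O) : IsUnit (⟨f, hf⟩ : O) ↔ f ≠ 0 ∧ f⁻¹ ∈ O := by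
  constructor
  · rintro ⟨u, hu⟩
    have h1 : ((u : O) : F) * ((u⁻¹ : Oˣ) : O) = 1 := by
      have h := Units.mul_inv u
      have h' : (((u : O) * ((u⁻¹ : Oˣ) : O) : O) : F) = ((1 : O) : F) := by rw [h]
      exact h'
    have hfu : ((u : O) : F) = f := by rw [hu]
    rw [hfu] at h1
    have hf0 : f ≠ 0 := left_ne_zero_of_mul_eq_one h1
    refine ⟨hf0, ?_⟩
    have : f⁻¹ = (((u⁻¹ : Oˣ) : O) : F) := by
      rw [eq_comm, ← mul_right_inj' hf0, h1, mul_inv_cancel₀ hf0]
    rw [this]
    exact Subtype.coe_prop _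
  · rintro ⟨hf0, hinv⟩
    exact isUnit_iff_exists_inv.mpr ⟨⟨f⁻¹, hinv⟩, Subtype.ext (mul_inv_cancel₀ hf0)⟩

theorem residue_eq_zero_iff_mem_nonunits {f : F} (hf : f ∈ O) :
    IsLocalRing.residue O ⟨f, hf⟩ = 0 ↔ f ∈ O.nonunits := by
  rw [IsLocalRing.residue_eq_zero_iff, ValuationSubring.mem_nonunits_iff_exists_mem_maximalIdeal]
  exact ⟨fun h => ⟨hf, h⟩, fun ⟨_, h⟩ => h⟩

theorem mem_of_mem_nonunits {f : F} (hf : f ∈ O.nonunits) : f ∈ O := by
  rw [ValuationSubring.mem_nonunits_iff_exists_mem_maximalIdeal] at hf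
  exact hf.1

theorem residue_eq_of_sub_mem_nonunits {f f' : F} (hf : f ∈ O) (hf' : f' ∈ O)
    (h : f - f' ∈ O.nonunits) :
    IsLocalRing.residue O ⟨f, hf⟩ = IsLocalRing.residue O ⟨f', hf'⟩ := by
  rw [← sub_eq_zero, ← map_sub]
  exact (residue_eq_zero_iff_mem_nonunits (O.sub_mem hf hf')).mpr h

/-! ### the residue field of `A` inside the residue field of `O` -/

section Residue

variable (hmem : ∀ a : K, algebraMap K F a ∈ O ↔ a ∈ A)

/-- the inclusion `A → O` -/
def incl : A →+* O where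
  toFun a := ⟨algebraMap K F a, (hmem a).mpr a.2⟩
  map_one' := Subtype.ext (by simp)
  map_mul' a b := Subtype.ext (by simp)
  map_zero' := Subtype.ext (by simp)
  map_add' a b := Subtype.ext (by simp)

theorem coe_incl (a : A) : ((incl hmem a : O) : F) = algebraMap K F (a : K) := rfl

theorem isLocalHom_incl : IsLocalHom (incl hmem) := by
  constructor
  intro a ha
  have h := (isUnit_mk_iff (O := O) ((hmem a).mpr a.2)).mp ha
  obtain ⟨h0, hinv⟩ := h
  have ha0 : (a : K) ≠ 0 := by
    intro h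
    apply h0
    rw [h, map_zero]
  rw [← map_inv₀, hmem] at hinv
  exact isUnit_iff_exists_inv.mpr ⟨⟨(a : K)⁻¹, hinv⟩, Subtype.ext (mul_inv_cancel₀ ha0)⟩

/-- the residue field of `A` maps to the residue field of `O` -/
def resMap : IsLocalRing.ResidueField A →+* IsLocalRing.ResidueField O :=
  haveI := isLocalHom_incl hmem
  IsLocalRing.ResidueField.map (incl hmem)

theorem resMap_residue (a : A) :
    resMap hmem (IsLocalRing.residue A a) = IsLocalRing.residue O (incl hmem a) := by
  haveI := isLocalHom_incl hmem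
  exact IsLocalRing.ResidueField.map_residue (incl hmem) a

theorem resMap_comp_residue :
    (resMap hmem).comp (IsLocalRing.residue A) = (IsLocalRing.residue O).comp (incl hmem) :=
  RingHom.ext fun a => resMap_residue hmem a

/-- reduction commutes with evaluation of polynomials -/
theorem eval₂_resMap (p : A[X]) (z : O) :
    eval₂ (resMap hmem) (IsLocalRing.residue O z) (p.map (IsLocalRing.residue A)) =
      IsLocalRing.residue O (eval₂ (incl hmem) z p) := by
  rw [eval₂_map, hom_eval₂, resMap_comp_residue]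

theorem coe_eval₂_incl (p : A[X]) (z : O) :
    ((eval₂ (incl hmem) z p : O) : F) = aeval (z : F) (p.map (algebraMap A K)) := by
  have h := hom_eval₂ p (incl hmem) O.subtype z
  rw [aeval_def, eval₂_map]
  exact h

theorem exists_lift (p : K[X]) (hp : ∀ i, p.coeff i ∈ A) :
    ∃ p' : A[X], p'.map (algebraMap A K) = p := by
  have : p ∈ lifts (algebraMap A K) := by
    rw [lifts_iff_coeff_lifts]
    intro n
    exact ⟨⟨p.coeff n, hp n⟩, rfl⟩
  exact (mem_lifts p).mp this

end Residue

/-! ### consequences of the Gauss hypothesis -/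

section Gauss

variable (hA : A ≠ ⊤) (hmem : ∀ a : K, algebraMap K F a ∈ O ↔ a ∈ A) {z : F}
  (hg : GaussHyp A O z)

include hA hmem hg

theorem z_mem_of_gauss : z ∈ O := by
  have h := (aeval_mem_iff hA hmem hg (X : K[X])).mpr (fun i => by
    rw [coeff_X]
    split_ifs
    · exact A.one_mem
    · exact A.zero_mem)
  rwa [aeval_X] at h

theorem aeval_ne_zero_of_gauss {p : K[X]} (hp : p ≠ 0) : aeval z p ≠ 0 := by
  obtain ⟨c₀, p', hc₀, hpp', hp'A, hp'1, -⟩ := exists_primitive_factor (A := A) hp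
  rw [hpp', map_mul, aeval_C]
  exact mul_ne_zero ((_root_.map_ne_zero _).mpr hc₀) (aeval_ne_zero_of_primitive hA hmem hg hp'A hp'1)

theorem transcendental_of_gauss : Transcendental K z := by
  rintro ⟨p, hp, h0⟩
  exact aeval_ne_zero_of_gauss hA hmem hg hp h0

theorem aeval_injective_of_gauss {p q : K[X]} (h : aeval z p = aeval z q) : p = q := by
  by_contra hne
  have := aeval_ne_zero_of_gauss hA hmem hg (sub_ne_zero.mpr hne)
  rw [map_sub, h, sub_self] at this
  exact this rfl

theorem isUnit_eval₂_incl (hz : z ∈ O) (p : A[X]) (hp : p.map (IsLocalRing.residue A) ≠ 0) :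
    IsUnit (eval₂ (incl hmem) ⟨z, hz⟩ p) := by
  have hex : ∃ i, IsLocalRing.residue A (p.coeff i) ≠ 0 := by
    by_contra hcon
    push Not at hcon
    apply hp
    ext i
    rw [coeff_map, hcon i, coeff_zero]
  obtain ⟨i, hi⟩ := hex
  have hu : IsUnit (p.coeff i) := by
    by_contra hnu
    exact hi ((IsLocalRing.residue_eq_zero_iff _).mpr hnu)
  obtain ⟨u, hu⟩ := hu
  set pK := p.map (algebraMap A K) with hpK
  have hcA : ∀ j, pK.coeff j ∈ A := fun j => by
    rw [hpK, coeff_map]; exact (p.coeff j).2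
  have hci : pK.coeff i ≠ 0 ∧ (pK.coeff i)⁻¹ ∈ A := by
    have h1 : pK.coeff i = ((u : A) : K) := by rw [hpK, coeff_map, hu]; rfl
    have h2 : ((u : A) : K) * (((u⁻¹ : Aˣ) : A) : K) = 1 := by
      have h := Units.mul_inv u
      have h' : (((u : A) * ((u⁻¹ : Aˣ) : A) : A) : K) = ((1 : A) : K) := by rw [h]
      exact h'
    have h0 : ((u : A) : K) ≠ 0 := left_ne_zero_of_mul_eq_one h2
    refine ⟨by rw [h1]; exact h0, ?_⟩
    have : (pK.coeff i)⁻¹ = (((u⁻¹ : Aˣ) : A) : K) := by
      rw [h1, eq_comm, ← mul_right_inj' h0, h2, mul_inv_cancel₀ h0]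
    rw [this]
    exact Subtype.coe_prop _
  have hgz := hg pK hcA ⟨i, hci⟩
  have hpK0 : pK ≠ 0 := by
    intro h
    apply hci.1
    rw [h, coeff_zero]
  have hne := aeval_ne_zero_of_gauss hA hmem hg hpK0
  have heq : eval₂ (incl hmem) ⟨z, hz⟩ p = ⟨aeval z pK, hgz.1⟩ :=
    Subtype.ext (coe_eval₂_incl hmem p ⟨z, hz⟩)
  rw [heq]
  exact (isUnit_mk_iff hgz.1).mpr ⟨hne, hgz.2⟩

theorem eval₂_resMap_ne_zero (hz : z ∈ O) (p : (IsLocalRing.ResidueField A)[X]) (hp : p ≠ 0) :
    eval₂ (resMap hmem) (IsLocalRing.residue O ⟨z, hz⟩) p ≠ 0 := by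
  obtain ⟨p', rfl⟩ := map_surjective (IsLocalRing.residue A) IsLocalRing.residue_surjective p
  rw [eval₂_resMap, Ne, IsLocalRing.residue_eq_zero_iff]
  intro h
  exact h (isUnit_eval₂_incl hA hmem hg hz p' hp)

/-- Gauss-integral elements of `K(z)` are quotients of polynomials over `A` with primitive
denominator (and the fraction may be taken in lowest terms). -/
theorem exists_coprime_repr (r : F) (hr : r ∈ K⟮z⟯) (hrO : r ∈ O) :
    ∃ p q : A[X], q.map (IsLocalRing.residue A) ≠ 0 ∧
      IsCoprime (p.map (algebraMap A K)) (q.map (algebraMap A K)) ∧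
      r * aeval z (q.map (algebraMap A K)) = aeval z (p.map (algebraMap A K)) := by
  classical
  obtain ⟨p₀, q₀, hrpq⟩ := (mem_adjoin_simple_iff K r).mp hr
  by_cases hq₀ : q₀ = 0
  · refine ⟨0, 1, ?_, ?_, ?_⟩
    · rw [Polynomial.map_one]; exact one_ne_zero
    · rw [Polynomial.map_one]; exact isCoprime_one_right
    · rw [hrpq, hq₀, map_zero, div_zero, zero_mul, Polynomial.map_zero, map_zero]
  -- lowest terms
  set g := EuclideanDomain.gcd p₀ q₀ with hgdef
  have hg0 : g ≠ 0 := fun h => hq₀ (EuclideanDomain.gcd_eq_zero_iff.mp h).2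
  obtain ⟨p₁, hp₁⟩ := EuclideanDomain.gcd_dvd_left p₀ q₀
  obtain ⟨q₁, hq₁⟩ := EuclideanDomain.gcd_dvd_right p₀ q₀
  rw [← hgdef] at hp₁ hq₁
  have hq₁0 : q₁ ≠ 0 := by
    rintro rfl
    exact hq₀ (by rw [hq₁, mul_zero])
  have hcop : IsCoprime p₁ q₁ := by
    refine ⟨EuclideanDomain.gcdA p₀ q₀, EuclideanDomain.gcdB p₀ q₀, ?_⟩
    have h := EuclideanDomain.gcd_eq_gcd_ab p₀ q₀
    rw [← hgdef] at h
    have h2 : g * (EuclideanDomain.gcdA p₀ q₀ * p₁ + EuclideanDomain.gcdB p₀ q₀ * q₁) = g * 1 := by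
      rw [mul_one]
      calc g * (EuclideanDomain.gcdA p₀ q₀ * p₁ + EuclideanDomain.gcdB p₀ q₀ * q₁)
          = (g * p₁) * EuclideanDomain.gcdA p₀ q₀ + (g * q₁) * EuclideanDomain.gcdB p₀ q₀ := by
            ring
        _ = p₀ * EuclideanDomain.gcdA p₀ q₀ + q₀ * EuclideanDomain.gcdB p₀ q₀ := by
            rw [← hp₁, ← hq₁]
        _ = g := h.symm
    exact mul_left_cancel₀ hg0 h2
  -- primitive denominator
  obtain ⟨c₀, q', hc₀, hqq', hq'A, hq'1, -⟩ := exists_primitive_factor (A := A) hq₁0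
  set p' := C c₀⁻¹ * p₁ with hp'
  have hcop' : IsCoprime p' q' := by
    have hu : IsUnit (C c₀⁻¹ : K[X]) := isUnit_C.mpr (isUnit_iff_ne_zero.mpr (inv_ne_zero hc₀))
    have hu' : IsUnit (C c₀ : K[X]) := isUnit_C.mpr (isUnit_iff_ne_zero.mpr hc₀)
    rw [hqq'] at hcop
    exact (isCoprime_mul_unit_left_left hu p₁ q').mpr
      ((isCoprime_mul_unit_left_right hu' p₁ q').mp hcop)
  have hzg : aeval z g ≠ 0 := aeval_ne_zero_of_gauss hA hmem hg hg0
  have hzq' : aeval z q' ≠ 0 := aeval_ne_zero_of_primitive hA hmem hg hq'A hq'1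
  have hc₀F : algebraMap K F c₀ ≠ 0 := (_root_.map_ne_zero _).mpr hc₀
  have hrel : r * aeval z q' = aeval z p' := by
    rw [hrpq, hp₁, hq₁, hqq', hp']
    simp only [map_mul, aeval_C, map_inv₀]
    field_simp
  have hp'A : ∀ i, p'.coeff i ∈ A := by
    rw [← aeval_mem_iff hA hmem hg, ← hrel]
    exact O.mul_mem _ _ hrO ((aeval_mem_iff hA hmem hg q').mpr hq'A)
  obtain ⟨P, hP⟩ := exists_lift p' hp'A
  obtain ⟨Q, hQ⟩ := exists_lift q' hq'A
  refine ⟨P, Q, ?_, by rw [hP, hQ]; exact hcop', by rw [hP, hQ]; exact hrel⟩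
  obtain ⟨i, hi⟩ := hq'1
  intro h
  have h1 := congrArg (fun t => t.coeff i) h
  simp only [coeff_map, coeff_zero] at h1
  have h2 : Q.coeff i = 1 := by
    apply Subtype.ext
    have h3 := congrArg (fun t => t.coeff i) hQ
    simp only [coeff_map] at h3
    rw [hi] at h3
    exact h3
  rw [h2, map_one] at h1
  exact one_ne_zero h1

/-- the residue of a Gauss-integral element of `K(z)` written as a fraction -/
theorem residue_eq_div (hz : z ∈ O) (r : F) (hrO : r ∈ O) (p q : A[X])
    (hq : q.map (IsLocalRing.residue A) ≠ 0)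
    (h : r * aeval z (q.map (algebraMap A K)) = aeval z (p.map (algebraMap A K))) :
    IsLocalRing.residue O ⟨r, hrO⟩ =
      eval₂ (resMap hmem) (IsLocalRing.residue O ⟨z, hz⟩) (p.map (IsLocalRing.residue A)) /
      eval₂ (resMap hmem) (IsLocalRing.residue O ⟨z, hz⟩) (q.map (IsLocalRing.residue A)) := by
  rw [eq_div_iff (eval₂_resMap_ne_zero hA hmem hg hz _ hq), eval₂_resMap, eval₂_resMap, ← map_mul]
  congr 1
  apply Subtype.ext
  show r * ((eval₂ (incl hmem) ⟨z, hz⟩ q : O) : F) = ((eval₂ (incl hmem) ⟨z, hz⟩ p : O) : F)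
  rw [coe_eval₂_incl, coe_eval₂_incl]
  exact h

end Gauss

/-! ### the orthonormal basis -/

variable (K) in
/-- the Gauss valuation ring `O ∩ K(z)` of `K(z)` -/
def gaussRing (O : ValuationSubring F) (z : F) : ValuationSubring K⟮z⟯ :=
  O.comap (algebraMap K⟮z⟯ F)

theorem mem_gaussRing {z : F} {a : K⟮z⟯} : a ∈ gaussRing K O z ↔ (a : F) ∈ O :=
  ValuationSubring.mem_comap

section Basis

variable (hA : A ≠ ⊤) (hmem : ∀ a : K, algebraMap K F a ∈ O ↔ a ∈ A) {z : F}
  (hg : GaussHyp A O z) [hfd : FiniteDimensional K⟮z⟯ F]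
  {θ : Fin (Module.finrank K⟮z⟯ F) → F}
  (hθ : ∀ r : Fin (Module.finrank K⟮z⟯ F) → K⟮z⟯,
    (∑ i, (r i : F) * θ i) ∈ O ↔ ∀ i, (r i : F) ∈ O)

include hθ in
theorem theta_mem (i : Fin (Module.finrank K⟮z⟯ F)) : θ i ∈ O := by
  classical
  have h := (hθ (fun j => if j = i then 1 else 0)).mpr (fun j => by
    split_ifs
    · simp
    · simp)
  have h2 : (∑ j, (((if j = i then 1 else 0 : K⟮z⟯)) : F) * θ j) = θ i := by
    rw [Finset.sum_eq_single i]
    · simp
    · intro j _ hj; simp [hj]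
    · intro h; exact absurd (Finset.mem_univ i) h
  rwa [h2] at h

include hA hmem hθ in
theorem exists_coords (f : F) (hf : f ∈ O) :
    ∃ r : Fin (Module.finrank K⟮z⟯ F) → K⟮z⟯, f = ∑ i, (r i : F) * θ i ∧ ∀ i, (r i : F) ∈ O := by
  have hli := linearIndependent_of_orthonormal hA hmem θ hθ
  have hspan := hli.span_eq_top_of_card_eq_finrank' (Fintype.card_fin _)
  have hmemf : f ∈ Submodule.span K⟮z⟯ (Set.range θ) := by rw [hspan]; trivial
  obtain ⟨r, hr⟩ := (Submodule.mem_span_range_iff_exists_fun K⟮z⟯).mp hmemf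
  have hr' : f = ∑ i, (r i : F) * θ i := by
    rw [← hr]
    rfl
  refine ⟨r, hr', ?_⟩
  rw [← hθ r, ← hr']
  exact hf

include hA hmem hθ in
/-- `O` is integral over the Gauss valuation ring of `K(z)`. -/
theorem isIntegral_gaussRing (f : F) (hf : f ∈ O) : IsIntegral (gaussRing K O z) f := by
  set N : Submodule (gaussRing K O z) F := Submodule.span _ (Set.range θ) with hNdef
  have hN : ∀ y : F, y ∈ N ↔ y ∈ O := by
    intro y
    constructor
    · intro hy
      induction hy using Submodule.span_induction with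
      | mem y hy =>
        obtain ⟨i, rfl⟩ := hy
        exact theta_mem hθ i
      | zero => exact O.zero_mem
      | add y y' _ _ hy hy' => exact O.add_mem _ _ hy hy'
      | smul a y _ hy =>
        have : a • y = (((a : K⟮z⟯)) : F) * y := rfl
        rw [this]
        exact O.mul_mem _ _ (mem_gaussRing.mp a.2) hy
    · intro hy
      obtain ⟨r, hr, hrO⟩ := exists_coords hA hmem hθ y hy
      rw [hr]
      refine Submodule.sum_mem _ fun i _ => ?_
      have : ((r i : K⟮z⟯) : F) * θ i = (⟨r i, mem_gaussRing.mpr (hrO i)⟩ : gaussRing K O z) • θ i :=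
        rfl
      rw [this]
      exact Submodule.smul_mem _ _ (Submodule.subset_span ⟨i, rfl⟩)
  have hNbot : N ≠ ⊥ := by
    intro h
    have h1 : (1 : F) ∈ N := (hN 1).mpr O.one_mem
    rw [h, Submodule.mem_bot] at h1
    exact one_ne_zero h1
  have hNfg : N.FG := Submodule.fg_span (Set.finite_range θ)
  refine isIntegral_of_smul_mem_submodule N hNbot hNfg f fun n hn => ?_
  rw [hN] at hn ⊢
  exact O.mul_mem _ _ hf hn

include hA hmem hg hθ in
/-- the residue field of `O` is spanned over `k(z̄)` by the residues of `θ` -/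
theorem exists_residue_span (hz : z ∈ O) :
    ∃ θb : Fin (Module.finrank K⟮z⟯ F) → IsLocalRing.ResidueField O,
      ∀ e : IsLocalRing.ResidueField O,
        ∃ p q : Fin (Module.finrank K⟮z⟯ F) → (IsLocalRing.ResidueField A)[X],
          e = ∑ i, eval₂ (resMap hmem) (IsLocalRing.residue O ⟨z, hz⟩) (p i) /
            eval₂ (resMap hmem) (IsLocalRing.residue O ⟨z, hz⟩) (q i) * θb i := by
  refine ⟨fun i => IsLocalRing.residue O ⟨θ i, theta_mem hθ i⟩, fun e => ?_⟩
  obtain ⟨fO, rfl⟩ := IsLocalRing.residue_surjective e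
  obtain ⟨r, hr, hrO⟩ := exists_coords hA hmem hθ (fO : F) fO.2
  choose P Q hQ _ hrel using fun i =>
    exists_coprime_repr hA hmem hg ((r i : K⟮z⟯) : F) (r i).2 (hrO i)
  refine ⟨fun i => (P i).map (IsLocalRing.residue A), fun i => (Q i).map (IsLocalRing.residue A), ?_⟩
  have hfO : fO = ∑ i, (⟨(r i : F), hrO i⟩ : O) * ⟨θ i, theta_mem hθ i⟩ := by
    apply Subtype.ext
    rw [hr]
    show _ = O.subtype (∑ i, (⟨(r i : F), hrO i⟩ : O) * ⟨θ i, theta_mem hθ i⟩)
    rw [map_sum]
    rfl
  rw [hfO, map_sum]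
  refine Finset.sum_congr rfl fun i _ => ?_
  rw [map_mul, residue_eq_div hA hmem hg hz _ (hrO i) (P i) (Q i) (hQ i) (hrel i)]

end Basis

/-! ### orthonormal families have independent residues -/

theorem residue_linearIndependent (hA : A ≠ ⊤) (hmem : ∀ a : K, algebraMap K F a ∈ O ↔ a ∈ A)
    (hscale : ∀ f : F, f ≠ 0 → ∃ c : K, c ≠ 0 ∧ algebraMap K F c * f ∈ O ∧
      (algebraMap K F c * f)⁻¹ ∈ O)
    {d : ℕ} (f : Fin d → F) (hON : IsON A O f) (hfO : ∀ i, f i ∈ O)
    (c : Fin d → IsLocalRing.ResidueField A)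
    (hc : ∑ i, resMap hmem (c i) * IsLocalRing.residue O ⟨f i, hfO i⟩ = 0) : ∀ i, c i = 0 := by
  choose a ha using fun i => IsLocalRing.residue_surjective (c i)
  set s : F := ∑ i, ((a i : A) : K) • f i with hs
  have hsO : s ∈ O := (hON fun i => ((a i : A) : K)).mpr fun i => (a i).2
  have hsum : (⟨s, hsO⟩ : O) = ∑ i, incl hmem (a i) * ⟨f i, hfO i⟩ := by
    apply Subtype.ext
    show s = O.subtype (∑ i, incl hmem (a i) * ⟨f i, hfO i⟩)
    rw [map_sum, hs]
    refine Finset.sum_congr rfl fun i _ => ?_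
    rw [Algebra.smul_def]
    rfl
  have hres : IsLocalRing.residue O ⟨s, hsO⟩ = 0 := by
    rw [hsum, map_sum, ← hc]
    refine Finset.sum_congr rfl fun i _ => ?_
    rw [map_mul, ← resMap_residue, ha]
  by_contra hcon
  push Not at hcon
  obtain ⟨i0, hi0⟩ := hcon
  have hu : IsUnit (a i0) := by
    by_contra hnu
    apply hi0
    rw [← ha i0]
    exact (IsLocalRing.residue_eq_zero_iff _).mpr hnu
  have hu' := (isUnit_mk_iff (O := A) (a i0).2).mp hu
  obtain ⟨ha0, hainv⟩ := hu'
  -- scaling by `t` with `t • s ∈ O` forces `t ∈ A`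
  have hkey : ∀ t : K, algebraMap K F t * s ∈ O → t ∈ A := by
    intro t ht
    have h1 : (∑ i, (t * ((a i : A) : K)) • f i) = algebraMap K F t * s := by
      rw [hs, Finset.mul_sum]
      refine Finset.sum_congr rfl fun i _ => ?_
      rw [mul_smul, Algebra.smul_def t]
    have h2 := (hON fun i => t * ((a i : A) : K)).mp (by rw [h1]; exact ht)
    have h3 := A.mul_mem _ _ (h2 i0) hainv
    rwa [mul_assoc, mul_inv_cancel₀ ha0, mul_one] at h3
  by_cases hs0 : s = 0
  · obtain ⟨t, ht⟩ := exists_not_mem_of_ne_top A hA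
    exact ht (hkey t (by rw [hs0, mul_zero]; exact O.zero_mem))
  · obtain ⟨c₁, hc₁, hc₁O, hc₁inv⟩ := hscale s hs0
    have hc₁A := hkey c₁ hc₁O
    have hsinv : s⁻¹ ∈ O := by
      have : s⁻¹ = algebraMap K F c₁ * (algebraMap K F c₁ * s)⁻¹ := by
        have hc₁F : algebraMap K F c₁ ≠ 0 := (_root_.map_ne_zero _).mpr hc₁
        field_simp
      rw [this]
      exact O.mul_mem _ _ ((hmem c₁).mpr hc₁A) hc₁inv
    have hunit : IsUnit (⟨s, hsO⟩ : O) := (isUnit_mk_iff hsO).mpr ⟨hs0, hsinv⟩
    exact ((IsLocalRing.residue_ne_zero_iff_isUnit _).mpr hunit) hres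

/-! ### functions without poles on a residue disc have integral residues -/

section Main

variable (hA : A ≠ ⊤) (hmem : ∀ a : K, algebraMap K F a ∈ O ↔ a ∈ A) {z : F}
  (hg : GaussHyp A O z) [hfd : FiniteDimensional K⟮z⟯ F]
  {θ : Fin (Module.finrank K⟮z⟯ F) → F}
  (hθ : ∀ r : Fin (Module.finrank K⟮z⟯ F) → K⟮z⟯,
    (∑ i, (r i : F) * θ i) ∈ O ↔ ∀ i, (r i : F) ∈ O)

/-- the ring homomorphism `O ∩ K(z) → O` -/
def gaussIncl (O : ValuationSubring F) (z : F) : gaussRing K O z →+* O where
  toFun a := ⟨((a : K⟮z⟯) : F), mem_gaussRing.mp a.2⟩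
  map_one' := rfl
  map_mul' _ _ := rfl
  map_zero' := rfl
  map_add' _ _ := rfl

include hA hmem hg hθ in
/-- **Integrality of residues.**  If `f'` is Gauss-integral and has no pole on the residue disc of
`b` (base function `z`), then the residue of `f'` is a root of a monic polynomial whose coefficients
are fractions `p(z̄)/q(z̄)` with `q(b̄) ≠ 0`. -/
theorem exists_monic_regular [IsAlgClosed K] [CharZero K] (hz : z ∈ O) (b : A) (f' : F)
    (hf' : f' ∈ discRing A O z (b : K)) :
    ∃ P : (IsLocalRing.ResidueField O)[X], P.Monic ∧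
      (∀ j, ∃ p q : (IsLocalRing.ResidueField A)[X], q.eval (IsLocalRing.residue A b) ≠ 0 ∧
        P.coeff j = eval₂ (resMap hmem) (IsLocalRing.residue O ⟨z, hz⟩) p /
          eval₂ (resMap hmem) (IsLocalRing.residue O ⟨z, hz⟩) q) ∧
      P.eval (IsLocalRing.residue O ⟨f', hf'.1⟩) = 0 := by
  classical
  haveI : Fact (Transcendental K z) := ⟨transcendental_of_gauss hA hmem hg⟩
  have hint := isIntegral_gaussRing hA hmem hθ f' hf'.1
  set mOL := minpoly (gaussRing K O z) f' with hmOL
  have hmon : mOL.Monic := minpoly.monic hint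
  have hmap : minpoly K⟮z⟯ f' = mOL.map (algebraMap (gaussRing K O z) K⟮z⟯) :=
    minpoly.isIntegrallyClosed_eq_field_fractions' K⟮z⟯ hint
  refine ⟨mOL.map ((IsLocalRing.residue O).comp (gaussIncl O z)), hmon.map _, ?_, ?_⟩
  · intro j
    rw [coeff_map]
    set r : F := (((mOL.coeff j : gaussRing K O z) : K⟮z⟯) : F) with hr
    have hrO : r ∈ O := mem_gaussRing.mp (mOL.coeff j).2
    have hrK : r ∈ K⟮z⟯ := SetLike.coe_mem _
    obtain ⟨p, q, hq, hcop, hrel⟩ := exists_coprime_repr hA hmem hg r hrK hrO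
    have hqb : (q.map (IsLocalRing.residue A)).eval (IsLocalRing.residue A b) ≠ 0 := by
      intro h0
      have hroot : 0 < (q.map (IsLocalRing.residue A)).rootMultiplicity (IsLocalRing.residue A b) :=
        (rootMultiplicity_pos hq).mpr h0
      rw [← Fermat.Agent.S18.H42.card_roots_disc_eq_rootMultiplicity A q hq b] at hroot
      obtain ⟨c, hc⟩ := Multiset.card_pos_iff_exists_mem.mp hroot
      rw [Multiset.mem_filter] at hc
      obtain ⟨hcroot, hcdisc⟩ := hc
      have hcmem : c - (b : K) ∈ A.nonunits := (ValuationSubring.mem_nonunits_iff A).mpr hcdisc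
      have hq0 : (q.map (algebraMap A K)).eval c = 0 := isRoot_of_mem_roots hcroot
      obtain ⟨α, s, hs, hreg⟩ := minpoly_coeff_regular (x := z) c f'
        (fun P hP => hf'.2 P ⟨c, hcmem, hP⟩) j
      have hcoef : (((minpoly K⟮z⟯ f').coeff j : K⟮z⟯) : F) = r := by
        rw [hmap, coeff_map]
        rfl
      rw [hcoef] at hreg
      have hpoly : p.map (algebraMap A K) * s = α * q.map (algebraMap A K) := by
        apply aeval_injective_of_gauss hA hmem hg
        rw [map_mul, map_mul, ← hrel, ← hreg]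
        ring
      have hev := congrArg (eval c) hpoly
      rw [eval_mul, eval_mul, hq0, mul_zero] at hev
      have hp0 : (p.map (algebraMap A K)).eval c = 0 := (mul_eq_zero.mp hev).resolve_right hs
      obtain ⟨u, v, huv⟩ := hcop
      have h1 := congrArg (eval c) huv
      rw [eval_add, eval_mul, eval_mul, hp0, hq0, mul_zero, mul_zero, add_zero, eval_one] at h1
      exact zero_ne_one h1
    refine ⟨p.map (IsLocalRing.residue A), q.map (IsLocalRing.residue A), hqb, ?_⟩
    exact residue_eq_div hA hmem hg hz r hrO p q hq hrel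
  · rw [eval_map, ← hom_eval₂]
    have h0 : eval₂ (gaussIncl O z) ⟨f', hf'.1⟩ mOL = 0 := by
      apply Subtype.ext
      have h1 := hom_eval₂ mOL (gaussIncl O z) O.subtype ⟨f', hf'.1⟩
      have h2 : aeval f' mOL = 0 := minpoly.aeval _ _
      rw [aeval_def] at h2
      show O.subtype (eval₂ (gaussIncl O z) ⟨f', hf'.1⟩ mOL) = 0
      rw [h1]
      exact h2
    rw [h0, map_zero]

end Main

end

end Fermat.Agent.S18.H57
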